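/-
Program A (S29 + S42), leaf "finite Galois orbit" (helper17).

Every element of the modular function field `F_N ⊗ ℚ̄`, every place of it, every divisor and
every class of `J₀(N)(ℚ̄) = JZero N` is fixed by `Gal(ℚ̄ / L)` for some number field `L`
(a finite-dimensional intermediate field of `ℚ̄ / ℚ`).  Consequently Galois orbits of classes
are finite and the Galois action on the subgroup generated by finitely many classes factors
through a finite level.

Generic core (`exists_finset_fixing_place`): in a function field with principal divisors, a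
place `v` is pinned down by finitely many functions: a uniformiser `y` at `v` (its finitely many
zeros are permuted by every semilinear automorphism fixing `y`) and, for every other zero `w` of
`y`, a function vanishing at `v` but not at `w`.
-/
import Fermat.Prelude.Def_ModularCurve_ArithmeticGalois
import Fermat.Prelude.Def_GaloisRep_Residual
import Fermat.Agent.S24.Ord
import Fermat.Agent.S18.H13.PrincDiv

set_option autoImplicit false

open AlgebraicCurve IntermediateField

noncomputable section

namespace Fermat.Agent.S29.H17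

/-! ### Generic part: places are pinned down by finitely many functions -/

section Generic

variable {K F : Type*} [Field K] [Field F] [Algebra K F]

/-- A place is a maximal proper valuation subring: comparable places are equal. -/
theorem place_eq_of_le' {v w : Place K F}
    (h : v.toValuationSubring ≤ w.toValuationSubring) : v = w := by
  have hnt : ∃ g : F, g ≠ 0 ∧ w.ord g ≠ 0 := by
    obtain ⟨π, hπ⟩ := IsDiscreteValuationRing.exists_irreducible w.toValuationSubring
    refine ⟨(π : F), ?_, ?_⟩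
    · simpa [ne_eq, ZeroMemClass.coe_eq_zero] using hπ.ne_zero
    · rw [w.ord_coe_irreducible hπ]
      exact one_ne_zero
  have key := Fermat.Agent.S24.H52.mem_iff_of_le v (Fermat.Agent.S24.H52.isAddVal_ord w)
    (fun f _ hm => Fermat.Agent.S24.H52.ord_nonneg_of_mem w (h hm)) hnt
  apply Place.ext
  apply SetLike.ext
  intro f
  by_cases hf : f = 0
  · rw [hf]
    exact ⟨fun _ => ValuationSubring.zero_mem _, fun _ => ValuationSubring.zero_mem _⟩
  · rw [key f hf, Fermat.Agent.S24.H52.mem_iff_ord_nonneg w hf]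

/-- Two distinct places are separated by a function: it vanishes at `v` and not at `w`. -/
theorem exists_ord_pos_of_ne {v w : Place K F} (h : w ≠ v) :
    ∃ y : F, 0 < v.ord y ∧ w.ord y ≤ 0 := by
  have hnle : ¬ w.toValuationSubring ≤ v.toValuationSubring := fun hle => h (place_eq_of_le' hle)
  obtain ⟨a, haw, hav⟩ := SetLike.not_le_iff_exists.mp hnle
  have ha0 : a ≠ 0 := fun h0 => hav (h0 ▸ v.toValuationSubring.zero_mem)
  refine ⟨a⁻¹, ?_, ?_⟩
  · rw [v.ord_inv]
    have : ¬ 0 ≤ v.ord a := fun h0 => hav ((Fermat.Agent.S24.H52.mem_iff_ord_nonneg v ha0).mpr h0)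
    omega
  · rw [w.ord_inv]
    have := (Fermat.Agent.S24.H52.mem_iff_ord_nonneg w ha0).mp haw
    omega

/-- **A place is pinned down by finitely many functions.**  Every semilinear automorphism
fixing these functions fixes the place. -/
theorem exists_finset_fixing_place [HasPrincipalDivisors K F] (v : Place K F) :
    ∃ s : Finset F, ∀ g : SemilinearAut K F, (∀ y ∈ s, g • y = y) → g • v = v := by
  classical
  obtain ⟨π, hπ⟩ := IsDiscreteValuationRing.exists_irreducible v.toValuationSubring
  have hy1 : v.ord (π : F) = 1 := v.ord_coe_irreducible hπ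
  have hy0 : (π : F) ≠ 0 := by
    intro h0
    rw [h0, v.ord_zero] at hy1
    exact zero_ne_one hy1
  obtain ⟨D, hD, -⟩ := HasPrincipalDivisors.exists_divisor (K := K) (π : F) hy0
  have hc : ∀ w : Place K F, ∃ y : F, w ≠ v → 0 < v.ord y ∧ w.ord y ≤ 0 := by
    intro w
    by_cases hw : w = v
    · exact ⟨0, fun h => absurd hw h⟩
    · obtain ⟨y, hy⟩ := exists_ord_pos_of_ne hw
      exact ⟨y, fun _ => hy⟩
  choose c hc using hc
  refine ⟨insert (π : F) (D.support.image c), fun g hg => ?_⟩
  by_contra hne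
  have hgy : g • (π : F) = (π : F) := hg _ (Finset.mem_insert_self _ _)
  have h1 : (g • v).ord (π : F) = 1 := by
    have := SemilinearAut.ord_smul g v (π : F)
    rw [hgy] at this
    rw [this, hy1]
  have hmem : g • v ∈ D.support := by
    rw [Finsupp.mem_support_iff, hD, h1]
    exact one_ne_zero
  have hgc : g • c (g • v) = c (g • v) :=
    hg _ (Finset.mem_insert_of_mem (Finset.mem_image_of_mem c hmem))
  obtain ⟨hpos, hle⟩ := hc (g • v) hne
  have h2 := SemilinearAut.ord_smul g v (c (g • v))
  rw [hgc] at h2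
  omega

/-- A semilinear automorphism fixing every place of the support of a divisor fixes the
divisor. -/
theorem smul_divisor_eq_of_fix (g : SemilinearAut K F) (D : Divisor K F)
    (h : ∀ v ∈ D.support, g • v = v) : g • D = D := by
  rw [SemilinearAut.divisor_smul_def]
  conv_rhs => rw [← Finsupp.mapDomain_id (v := D)]
  exact Finsupp.mapDomain_congr (fun v hv => h v hv)

/-- A semilinear automorphism fixing a divisor of degree zero fixes its class. -/
theorem smul_pic0_mk_eq_of_fix (g : SemilinearAut K F)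
    (D : Divisor.degZero (K := K) (F := F)) (h : g • (D : Divisor K F) = (D : Divisor K F)) :
    g • Pic0.mk D = Pic0.mk D := by
  rw [SemilinearAut.pic0_smul_mk]
  exact congrArg Pic0.mk (Subtype.ext (by rw [SemilinearAut.coe_degZeroSMulHom, h]))

end Generic

/-! ### Levels: finite-dimensional subfields of `L / ℚ` fixing things -/

section Levels

variable {L : Type*} [Field L] [Algebra ℚ L]

/-- `FixedAbove P`: the predicate `P` on automorphisms holds for every automorphism fixing
some finite-dimensional subfield. -/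
def FixedAbove (P : (L ≃ₐ[ℚ] L) → Prop) : Prop :=
  ∃ E : IntermediateField ℚ L, FiniteDimensional ℚ E ∧
    ∀ σ : L ≃ₐ[ℚ] L, (∀ a ∈ E, σ a = a) → P σ

theorem FixedAbove.mono {P Q : (L ≃ₐ[ℚ] L) → Prop} (h : FixedAbove P) (hPQ : ∀ σ, P σ → Q σ) :
    FixedAbove Q := by
  obtain ⟨E, hE, hP⟩ := h
  exact ⟨E, hE, fun σ hσ => hPQ σ (hP σ hσ)⟩

theorem FixedAbove.of_forall {P : (L ≃ₐ[ℚ] L) → Prop} (h : ∀ σ, P σ) : FixedAbove P :=
  ⟨⊥, inferInstance, fun σ _ => h σ⟩

/-- The level can be taken normal over `ℚ` (when the ambient field is). -/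
theorem FixedAbove.exists_normal [Normal ℚ L] {P : (L ≃ₐ[ℚ] L) → Prop} (h : FixedAbove P) :
    ∃ E : IntermediateField ℚ L, FiniteDimensional ℚ E ∧ Normal ℚ E ∧
      ∀ σ : L ≃ₐ[ℚ] L, (∀ a ∈ E, σ a = a) → P σ := by
  obtain ⟨E, hE, hP⟩ := h
  refine ⟨@IntermediateField.normalClosure ℚ E L _ _ _ E.algebra' _, ?_, ?_,
    fun σ hσ => hP σ fun a ha => hσ a (E.le_normalClosure ha)⟩
  · exact @normalClosure.is_finiteDimensional ℚ E L _ _ _ E.algebra' _ hE
  · have h1 := @normalClosure.normal ℚ E L _ _ _ E.algebra' _ _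
    convert h1
    exact Subsingleton.elim _ _

theorem FixedAbove.and {P Q : (L ≃ₐ[ℚ] L) → Prop} (hP : FixedAbove P) (hQ : FixedAbove Q) :
    FixedAbove (fun σ => P σ ∧ Q σ) := by
  obtain ⟨E₁, hE₁, h₁⟩ := hP
  obtain ⟨E₂, hE₂, h₂⟩ := hQ
  refine ⟨E₁ ⊔ E₂, inferInstance, fun σ hσ => ⟨h₁ σ fun a ha => hσ a ?_, h₂ σ fun a ha => hσ a ?_⟩⟩
  · exact (le_sup_left : E₁ ≤ E₁ ⊔ E₂) ha
  · exact (le_sup_right : E₂ ≤ E₁ ⊔ E₂) ha

theorem FixedAbove.finset {ι : Type*} (s : Finset ι) {P : ι → (L ≃ₐ[ℚ] L) → Prop}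
    (h : ∀ i ∈ s, FixedAbove (P i)) : FixedAbove (fun σ => ∀ i ∈ s, P i σ) := by
  classical
  induction s using Finset.induction_on with
  | empty => exact FixedAbove.of_forall (fun _ i hi => absurd hi (Finset.notMem_empty i))
  | insert i s _ ih =>
      have h1 := h i (Finset.mem_insert_self i s)
      have h2 := ih (fun j hj => h j (Finset.mem_insert_of_mem hj))
      refine (h1.and h2).mono (fun σ hσ j hj => ?_)
      rcases Finset.mem_insert.mp hj with rfl | hj
      · exact hσ.1
      · exact hσ.2 j hj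

/-- Fixing one algebraic element is a finite-level condition. -/
theorem fixedAbove_elt [Algebra.IsAlgebraic ℚ L] (a : L) :
    FixedAbove (fun σ : L ≃ₐ[ℚ] L => σ a = a) :=
  ⟨ℚ⟮a⟯, IntermediateField.adjoin.finiteDimensional (Algebra.IsIntegral.isIntegral a),
    fun _ hσ => hσ a (IntermediateField.mem_adjoin_simple_self ℚ a)⟩

end Levels

/-! ### Elements of the base-changed Laurent-series fields -/

section Elements

open ModularCurve HahnSeries

variable {L : Type*} [Field L] [Algebra ℚ L] [Algebra.IsAlgebraic ℚ L]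
variable (F₀ : IntermediateField ℚ (LaurentSeries ℚ))

theorem fixedAbove_coeffMap {x : LaurentSeries L} (hx : x ∈ laurentBaseChange L F₀) :
    FixedAbove (fun σ : L ≃ₐ[ℚ] L => coeffMap (σ : L →+* L) x = x) := by
  rw [mem_laurentBaseChange_iff] at hx
  induction hx using Subfield.closure_induction with
  | mem y hy =>
      rcases hy with ⟨a, rfl⟩ | ⟨z, hz, rfl⟩
      · refine (fixedAbove_elt a).mono (fun σ hσ => ?_)
        rw [coeffMap_algebraMap]
        exact congrArg _ hσ
      · exact FixedAbove.of_forall (fun σ => coeffMap_coeffEmb σ z)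
  | one => exact FixedAbove.of_forall (fun _ => map_one _)
  | add x y _ _ hx hy =>
      refine (hx.and hy).mono (fun σ hσ => ?_)
      rw [map_add, hσ.1, hσ.2]
  | neg x _ hx =>
      refine hx.mono (fun σ hσ => ?_)
      rw [map_neg, hσ]
  | inv x _ hx =>
      refine hx.mono (fun σ hσ => ?_)
      rw [map_inv₀, hσ]
  | mul x y _ _ hx hy =>
      refine (hx.and hy).mono (fun σ hσ => ?_)
      rw [map_mul, hσ.1, hσ.2]

/-- **(O1)** Every element of `F₀ ⊗ L` is fixed by the automorphisms fixing a suitable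
finite-dimensional subfield. -/
theorem fixedAbove_smul_elt (f : laurentBaseChange L F₀) :
    FixedAbove (fun σ : L ≃ₐ[ℚ] L => arithmeticGalois F₀ σ • f = f) :=
  (fixedAbove_coeffMap F₀ f.2).mono (fun σ hσ => Subtype.ext (by
    rw [coe_arithmeticGalois_smul]
    exact hσ))

end Elements

/-! ### Places, divisors and classes of the modular function field over `ℚ̄` -/

section Modular

open ModularCurve

variable (N : ℕ) [NeZero N]

local notation "Qb" => AlgebraicClosure ℚ

/-- `ℚ̄ / ℚ` is algebraic, for the default `ℚ`-algebra structure of a characteristic zero field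
(the one the frozen statements elaborate with). -/
theorem isAlgebraic_Qb : Algebra.IsAlgebraic ℚ Qb := by
  have h : (DivisionRing.toRatAlgebra : Algebra ℚ (AlgebraicClosure ℚ)) =
      AlgebraicClosure.instAlgebra ℚ := Subsingleton.elim _ _
  rw [h]
  exact AlgebraicClosure.isAlgebraic ℚ

/-- `ℚ̄ / ℚ` is normal, for the default `ℚ`-algebra structure. -/
theorem normal_Qb : Normal ℚ Qb := by
  have h : (DivisionRing.toRatAlgebra : Algebra ℚ (AlgebraicClosure ℚ)) =
      AlgebraicClosure.instAlgebra ℚ := Subsingleton.elim _ _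
  rw [h]
  exact @IsAlgClosure.normal ℚ (AlgebraicClosure ℚ) _ _ (AlgebraicClosure.instAlgebra ℚ)
    inferInstance

attribute [local instance] isAlgebraic_Qb normal_Qb

/-- **(O2)** Every place of `F_N ⊗ ℚ̄` is fixed by `Gal(ℚ̄ / L)` for a number field `L`. -/
theorem fixedAbove_smul_place (v : Place Qb (modularFunctionFieldBar N)) :
    FixedAbove (fun σ : Qb ≃ₐ[ℚ] Qb => arithmeticGalois (modularFunctionFieldFull N) σ • v = v) := by
  have : HasPrincipalDivisors Qb (modularFunctionFieldBar N) :=
    Fermat.Agent.S18.H13.hasPrincipalDivisors_FF N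
  obtain ⟨s, hs⟩ := exists_finset_fixing_place v
  exact (FixedAbove.finset s
    (fun y _ => fixedAbove_smul_elt (modularFunctionFieldFull N) y)).mono
    (fun σ hσ => hs _ hσ)

/-- **(O3)** Every divisor of `F_N ⊗ ℚ̄` is fixed by `Gal(ℚ̄ / L)` for a number field `L`. -/
theorem fixedAbove_smul_divisor (D : Divisor Qb (modularFunctionFieldBar N)) :
    FixedAbove (fun σ : Qb ≃ₐ[ℚ] Qb => arithmeticGalois (modularFunctionFieldFull N) σ • D = D) :=
  (FixedAbove.finset D.support (fun v _ => fixedAbove_smul_place N v)).mono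
    (fun _ hσ => smul_divisor_eq_of_fix _ D hσ)

/-- **(O4), `FixedAbove` form.** -/
theorem fixedAbove_smul (x : JZero N) : FixedAbove (fun σ : Qb ≃ₐ[ℚ] Qb => σ • x = x) := by
  obtain ⟨D, rfl⟩ := Pic0.mk_surjective x
  exact (fixedAbove_smul_divisor N (D : Divisor Qb (modularFunctionFieldBar N))).mono
    (fun σ hσ => smul_pic0_mk_eq_of_fix _ D hσ)

omit [NeZero N] in
/-- **(O1), explicit form.** -/
theorem exists_level_fixing_elt (f : modularFunctionFieldBar N) :
    ∃ L : IntermediateField ℚ Qb, FiniteDimensional ℚ L ∧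
      ∀ σ : Qb ≃ₐ[ℚ] Qb, (∀ a ∈ L, σ a = a) →
        arithmeticGalois (modularFunctionFieldFull N) σ • f = f :=
  fixedAbove_smul_elt (modularFunctionFieldFull N) f

/-- **(O2), explicit form.** -/
theorem exists_level_fixing_place (v : Place Qb (modularFunctionFieldBar N)) :
    ∃ L : IntermediateField ℚ Qb, FiniteDimensional ℚ L ∧
      ∀ σ : Qb ≃ₐ[ℚ] Qb, (∀ a ∈ L, σ a = a) →
        arithmeticGalois (modularFunctionFieldFull N) σ • v = v :=
  fixedAbove_smul_place N v

/-- **(O3), explicit form.** -/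
theorem exists_level_fixing_divisor (D : Divisor Qb (modularFunctionFieldBar N)) :
    ∃ L : IntermediateField ℚ Qb, FiniteDimensional ℚ L ∧
      ∀ σ : Qb ≃ₐ[ℚ] Qb, (∀ a ∈ L, σ a = a) →
        arithmeticGalois (modularFunctionFieldFull N) σ • D = D :=
  fixedAbove_smul_divisor N D

/-- **(O4)** Every class of `J₀(N)(ℚ̄)` is fixed by `Gal(ℚ̄ / L)` for a number field `L`. -/
theorem exists_level_fixing (x : JZero N) :
    ∃ L : IntermediateField ℚ Qb, FiniteDimensional ℚ L ∧
      ∀ σ : Qb ≃ₐ[ℚ] Qb, (∀ a ∈ L, σ a = a) → σ • x = x :=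
  fixedAbove_smul N x

/-- **(O5)** Finitely many classes are fixed by `Gal(ℚ̄ / L)` for one number field `L`. -/
theorem exists_level_fixing_finset (s : Finset (JZero N)) :
    ∃ L : IntermediateField ℚ Qb, FiniteDimensional ℚ L ∧
      ∀ σ : Qb ≃ₐ[ℚ] Qb, (∀ a ∈ L, σ a = a) → ∀ x ∈ s, σ • x = x :=
  FixedAbove.finset s (fun x _ => fixedAbove_smul N x)

/-- **(O5')** The subgroup generated by finitely many classes is fixed pointwise by
`Gal(ℚ̄ / L)` for one number field `L`. -/
theorem exists_level_fixing_closure (s : Finset (JZero N)) :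
    ∃ L : IntermediateField ℚ Qb, FiniteDimensional ℚ L ∧
      ∀ σ : Qb ≃ₐ[ℚ] Qb, (∀ a ∈ L, σ a = a) →
        ∀ x ∈ AddSubgroup.closure (s : Set (JZero N)), σ • x = x := by
  obtain ⟨L, hL, h⟩ := exists_level_fixing_finset N s
  refine ⟨L, hL, fun σ hσ x hx => ?_⟩
  induction hx using AddSubgroup.closure_induction with
  | mem y hy => exact h σ hσ y hy
  | zero => exact smul_zero (A := JZero N) σ
  | add y z _ _ hy hz => rw [smul_add, hy, hz]
  | neg y _ hy => rw [smul_neg, hy]

/-- **(O4), normal form.**  The level can be taken Galois over `ℚ`. -/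
theorem exists_normal_level_fixing_finset (s : Finset (JZero N)) :
    ∃ L : IntermediateField ℚ Qb, FiniteDimensional ℚ L ∧ Normal ℚ L ∧
      ∀ σ : Qb ≃ₐ[ℚ] Qb, (∀ a ∈ L, σ a = a) → ∀ x ∈ s, σ • x = x :=
  (FixedAbove.finset s (fun x _ => fixedAbove_smul N x)).exists_normal

omit [NeZero N] in
/-- Two automorphisms with the same restriction to the level act in the same way. -/
theorem smul_eq_smul_of_level {P : JZero N} {L : IntermediateField ℚ Qb}
    (h : ∀ σ : Qb ≃ₐ[ℚ] Qb, (∀ a ∈ L, σ a = a) → σ • P = P)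
    {σ τ : Qb ≃ₐ[ℚ] Qb} (hστ : ∀ a ∈ L, σ a = τ a) : σ • P = τ • P := by
  have h1 : (τ⁻¹ * σ) • P = P := h _ (fun a ha => by
    rw [AlgEquiv.mul_apply, hστ a ha]
    exact τ.symm_apply_apply a)
  rw [mul_smul] at h1
  have h2 := congrArg (τ • ·) h1
  simpa using h2

/-- **(O6)** The Galois orbit of a class of `J₀(N)(ℚ̄)` is finite. -/
theorem finite_orbit (x : JZero N) :
    (Set.range fun σ : Qb ≃ₐ[ℚ] Qb => σ • x).Finite := by
  classical
  obtain ⟨L, hL, h⟩ := exists_level_fixing N x
  let r : (Qb ≃ₐ[ℚ] Qb) → (L →ₐ[ℚ] Qb) := fun σ => (σ : Qb →ₐ[ℚ] Qb).comp L.val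
  let f : (L →ₐ[ℚ] Qb) → JZero N := fun τ => if hτ : ∃ σ, r σ = τ then hτ.choose • x else 0
  refine (Set.finite_range f).subset ?_
  rintro _ ⟨σ, rfl⟩
  refine ⟨r σ, ?_⟩
  have hex : ∃ σ', r σ' = r σ := ⟨σ, rfl⟩
  show (if hτ : ∃ σ', r σ' = r σ then hτ.choose • x else 0) = σ • x
  rw [dif_pos hex]
  refine smul_eq_smul_of_level N h (fun a ha => ?_)
  have := congrArg (fun φ : L →ₐ[ℚ] Qb => φ ⟨a, ha⟩) hex.choose_spec
  exact this

end Modular

/-! ### Interfaces with the frozen shapes -/

section Frozen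

local notation "Qb" => AlgebraicClosure ℚ

/-- `FixedAbove (ρ · = 1)` is literally the Prelude's `GaloisFactorsThroughFiniteLevel ρ`. -/
theorem fixedAbove_iff_factorsThroughFiniteLevel {M : Type} [MulOneClass M]
    (ρ : (Qb ≃ₐ[ℚ] Qb) →* M) :
    FixedAbove (fun σ => ρ σ = 1) ↔ GaloisFactorsThroughFiniteLevel ρ :=
  Iff.rfl

/-- A finite-level condition holds on the kernel of the restriction to a Galois number field
`F ⊆ ℚ̄`, with the binders in exactly the shape of the frozen `S42`
(`FreyPackage.EigenformResidualAttachmentAt`). -/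
theorem FixedAbove.exists_numberField {P : (Qb ≃ₐ[ℚ] Qb) → Prop} (h : FixedAbove P) :
    ∃ (F : Type) (_ : Field F) (_ : NumberField F) (_ : IsGalois ℚ F)
      (_ : Algebra F Qb) (_ : IsScalarTower ℚ F Qb),
      ∀ σ ∈ (AlgEquiv.restrictNormalHom (F := ℚ) (K₁ := Qb) F).ker, P σ := by
  have := normal_Qb
  obtain ⟨E, hfd, hnorm, hP⟩ := h.exists_normal
  have hcz : CharZero E := inferInstance
  have hnf : NumberField E :=
    { to_charZero := hcz
      to_finiteDimensional := by
        convert hfd }
  have hsep : Algebra.IsSeparable ℚ E := inferInstance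
  have hgal : IsGalois ℚ E := { to_isSeparable := hsep, to_normal := hnorm }
  have htower : IsScalarTower ℚ E Qb :=
    IsScalarTower.of_algebraMap_eq' (Subsingleton.elim _ _)
  refine ⟨E, inferInstance, hnf, hgal, inferInstance, htower, fun σ hσ => hP σ fun a ha => ?_⟩
  have h1 : AlgEquiv.restrictNormalHom (F := ℚ) (K₁ := Qb) E σ = 1 := hσ
  have h2 := AlgEquiv.restrictNormal_commutes σ E ⟨a, ha⟩
  have h3 : σ.restrictNormal E = 1 := h1
  rw [h3] at h2
  exact h2.symm

end Frozen

end Fermat.Agent.S29.H17
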