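/-
Program A (S29 + S42), consumer-side glue on top of `GaloisOrbit.lean` (helper17).

For a family `m0 : X → JZero N` of classes with finite range (e.g. `m0 = AJ ∘ …` on the finite
group of characters):

* `fixedAbove_smul_orbit` : one finite level fixes ALL Galois translates `τ • m0 x`
  (normal level: `τ⁻¹ σ τ` fixes the level as soon as `σ` does);
* `finite_range_smul_family` : the functions `x ↦ σ • m0 x` (σ ∈ Gal(ℚ̄/ℚ)) form a finite set —
  the hypothesis `hfin` of the abstract module construction (MOD-ABS).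
-/
import Fermat.Agent.S29.H17.GaloisOrbit

set_option autoImplicit false

open AlgebraicCurve IntermediateField

noncomputable section

namespace Fermat.Agent.S29.H17

section Levels

variable {L : Type*} [Field L] [Algebra ℚ L]

/-- The level can be taken stable under all automorphisms (when the ambient field is normal). -/
theorem FixedAbove.exists_stable [Normal ℚ L] {P : (L ≃ₐ[ℚ] L) → Prop} (h : FixedAbove P) :
    ∃ E : IntermediateField ℚ L, FiniteDimensional ℚ E ∧
      (∀ τ : L ≃ₐ[ℚ] L, ∀ a ∈ E, τ a ∈ E) ∧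
      ∀ σ : L ≃ₐ[ℚ] L, (∀ a ∈ E, σ a = a) → P σ := by
  obtain ⟨E, hE, hP⟩ := h
  have h1 := @normalClosure.normal ℚ E L _ _ _ E.algebra' _ _
  refine ⟨@IntermediateField.normalClosure ℚ E L _ _ _ E.algebra' _, ?_, ?_,
    fun σ hσ => hP σ fun a ha => hσ a (E.le_normalClosure ha)⟩
  · exact @normalClosure.is_finiteDimensional ℚ E L _ _ _ E.algebra' _ hE
  · intro τ a ha
    have h2 := IntermediateField.normal_iff_forall_map_le'.mp h1 τ
    exact h2 ⟨a, ha, rfl⟩

/-- A finite-level condition is inherited by all conjugates: if `P` holds above a level then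
`σ ↦ ∀ τ, P (τ⁻¹ * σ * τ)` holds above a (normal) level. -/
theorem FixedAbove.conj [Normal ℚ L] {P : (L ≃ₐ[ℚ] L) → Prop} (h : FixedAbove P) :
    FixedAbove (fun σ => ∀ τ : L ≃ₐ[ℚ] L, P (τ⁻¹ * σ * τ)) := by
  obtain ⟨E, hE, hstab, hP⟩ := h.exists_stable
  refine ⟨E, hE, fun σ hσ τ => hP _ fun a ha => ?_⟩
  rw [AlgEquiv.mul_apply, AlgEquiv.mul_apply, hσ (τ a) (hstab τ a ha)]
  exact τ.symm_apply_apply a

end Levels

section Modular

open ModularCurve

variable (N : ℕ) [NeZero N]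

local notation "Qb" => AlgebraicClosure ℚ

/-- **One finite level fixes all Galois translates of a finite family of classes.** -/
theorem fixedAbove_smul_orbit {X : Type*} (m0 : X → JZero N) (hs : (Set.range m0).Finite) :
    FixedAbove (fun σ : Qb ≃ₐ[ℚ] Qb => ∀ (τ : Qb ≃ₐ[ℚ] Qb) (x : X), σ • τ • m0 x = τ • m0 x) := by
  classical
  have := normal_Qb
  have h1 : FixedAbove (fun σ : Qb ≃ₐ[ℚ] Qb => ∀ y ∈ hs.toFinset, σ • y = y) :=
    FixedAbove.finset hs.toFinset (fun y _ => fixedAbove_smul N y)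
  refine h1.conj.mono (fun σ hσ τ x => ?_)
  have h2 : (τ⁻¹ * σ * τ) • m0 x = m0 x :=
    hσ τ (m0 x) (hs.mem_toFinset.mpr ⟨x, rfl⟩)
  rw [mul_smul, mul_smul] at h2
  have h3 := congrArg (τ • ·) h2
  simpa using h3

/-- **The hypothesis `hfin` of MOD-ABS**: for a family of classes with finite range, the
functions `x ↦ σ • m0 x`, `σ ∈ Gal(ℚ̄/ℚ)`, form a finite set. -/
theorem finite_range_smul_family {X : Type*} (m0 : X → JZero N) (hs : (Set.range m0).Finite) :
    (Set.range fun σ : Qb ≃ₐ[ℚ] Qb => fun x : X => σ • m0 x).Finite := by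
  classical
  obtain ⟨E, hE, h⟩ : FixedAbove (fun σ : Qb ≃ₐ[ℚ] Qb => ∀ y ∈ hs.toFinset, σ • y = y) :=
    FixedAbove.finset hs.toFinset (fun y _ => fixedAbove_smul N y)
  let r : (Qb ≃ₐ[ℚ] Qb) → (E →ₐ[ℚ] Qb) := fun σ => (σ : Qb →ₐ[ℚ] Qb).comp E.val
  let f : (E →ₐ[ℚ] Qb) → (X → JZero N) := fun τ =>
    if hτ : ∃ σ, r σ = τ then fun x => hτ.choose • m0 x else 0
  refine (Set.finite_range f).subset ?_
  rintro _ ⟨σ, rfl⟩
  refine ⟨r σ, ?_⟩
  have hex : ∃ σ', r σ' = r σ := ⟨σ, rfl⟩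
  show (if hτ : ∃ σ', r σ' = r σ then fun x => hτ.choose • m0 x else 0) = fun x => σ • m0 x
  rw [dif_pos hex]
  funext x
  refine smul_eq_smul_of_level N
    (fun ρ hρ => h ρ hρ (m0 x) (hs.mem_toFinset.mpr ⟨x, rfl⟩)) (fun a ha => ?_)
  have := congrArg (fun φ : E →ₐ[ℚ] Qb => φ ⟨a, ha⟩) hex.choose_spec
  exact this

/-- The same with the Galois group acting after an arbitrary translate (shape of the third
clause of MOD-ABS): the condition "σ fixes every `τ • m0 x`" is a finite-level condition,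
in the Prelude's `GaloisFactorsThroughFiniteLevel` shape for any `r` trivial on such `σ`. -/
theorem factorsThroughFiniteLevel_of_orbit {X : Type*} (m0 : X → JZero N)
    (hs : (Set.range m0).Finite) {M : Type} [MulOneClass M] (r : (Qb ≃ₐ[ℚ] Qb) →* M)
    (hr : ∀ σ : Qb ≃ₐ[ℚ] Qb,
      (∀ (τ : Qb ≃ₐ[ℚ] Qb) (x : X), σ • τ • m0 x = τ • m0 x) → r σ = 1) :
    GaloisFactorsThroughFiniteLevel r :=
  (fixedAbove_iff_factorsThroughFiniteLevel r).mp
    ((fixedAbove_smul_orbit N m0 hs).mono hr)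

end Modular

end Fermat.Agent.S29.H17
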