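/-
Program A (S42 top), the elliptic-curve side of the number field `F` (helper17).

For a Weierstrass curve `W'` over `ℚ`: every point of `W'(ℚ̄)` is fixed by `Gal(ℚ̄ / L)` for a
number field `L`; if the `n`-torsion is finite, the mod-`n` representation
`galoisRepModuleEnd ℚ W' n` is trivial above a finite level (`FixedAbove`, i.e. the Prelude's
`GaloisFactorsThroughFiniteLevel`).  For the Frey curve of a Frey package this holds
unconditionally (`p ≥ 5`; landed torsion bound `S52.H55`).

`exists_numberField_freyCurve`: the clause of the frozen `S42` about the number field `F`,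
verbatim, from a finite-level statement for the second representation.
-/
import Fermat.Agent.S29.H17.GaloisOrbit
import Fermat.Prelude.Def_FreyPackage_EigenformResidualAttachment
import Fermat.Agent.S52.H55.TorsionAnyChar

set_option autoImplicit false

open WeierstrassCurve WeierstrassCurve.Affine.Point
open scoped WeierstrassCurve.Affine

noncomputable section

namespace Fermat.Agent.S29.H17

local notation "Qb" => AlgebraicClosure ℚ

attribute [local instance] isAlgebraic_Qb

section Curve

variable {W' : Affine ℚ}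

/-- Every point of `W'(ℚ̄)` is fixed by `Gal(ℚ̄ / L)` for a number field `L`. -/
theorem fixedAbove_smul_point (P : (W'⁄Qb).Point) :
    FixedAbove (fun σ : Qb ≃ₐ[ℚ] Qb => σ • P = P) := by
  rcases P with _ | ⟨x, y, h⟩
  · exact FixedAbove.of_forall (fun _ => rfl)
  · refine ((fixedAbove_elt (x : Qb)).and (fixedAbove_elt (y : Qb))).mono (fun σ hσ => ?_)
    rw [algEquiv_smul_def]
    simp only [WeierstrassCurve.Affine.Point.map_some]
    rw [WeierstrassCurve.Affine.Point.some.injEq]
    exact ⟨hσ.1, hσ.2⟩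

/-- If the `n`-torsion of `W'(ℚ̄)` is finite, the mod-`n` Galois representation is trivial above
a finite level. -/
theorem fixedAbove_galoisRepModuleEnd (W' : Affine ℚ) (n : ℕ)
    [Finite (Submodule.torsionBy ℤ (W'⁄Qb).Point n)] :
    FixedAbove (fun σ : Qb ≃ₐ[ℚ] Qb => galoisRepModuleEnd (S := ℚ) (K := Qb) W' n σ = 1) := by
  classical
  have := Fintype.ofFinite (Submodule.torsionBy ℤ (W'⁄Qb).Point n)
  have h : FixedAbove (fun σ : Qb ≃ₐ[ℚ] Qb =>
      ∀ P ∈ (Finset.univ : Finset (Submodule.torsionBy ℤ (W'⁄Qb).Point n)),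
        σ • (P : (W'⁄Qb).Point) = P) :=
    FixedAbove.finset _ (fun P _ => fixedAbove_smul_point (P : (W'⁄Qb).Point))
  refine h.mono (fun σ hσ => ?_)
  refine LinearMap.ext (fun P => Subtype.ext ?_)
  exact hσ P (Finset.mem_univ P)

/-- The same in the Prelude's shape. -/
theorem galoisFactorsThroughFiniteLevel_galoisRepModuleEnd (W' : Affine ℚ) (n : ℕ)
    [Finite (Submodule.torsionBy ℤ (W'⁄Qb).Point n)] :
    GaloisFactorsThroughFiniteLevel (galoisRepModuleEnd (S := ℚ) (K := Qb) W' n) :=
  (fixedAbove_iff_factorsThroughFiniteLevel _).mp (fixedAbove_galoisRepModuleEnd W' n)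

end Curve

section Frey

/-- The `p`-torsion of the Frey curve over `ℚ̄` is finite. -/
theorem finite_torsionBy_freyCurve (P : FreyPackage) :
    Finite (Submodule.torsionBy ℤ (P.freyCurve⁄Qb).Point P.p) := by
  classical
  have hp2 : P.p ≠ 2 := by have := P.hp5; omega
  have hpK : ((P.p : ℕ) : Qb) ≠ 0 := by exact_mod_cast P.hp0
  exact (Fermat.Agent.S52.H55.natCard_torsionBy_le_of_cast_ne_zero
    (P.freyCurve⁄Qb) P.pp hp2 hpK).1

/-- The mod-`p` representation of the Frey curve is trivial above a finite level. -/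
theorem fixedAbove_freyCurve (P : FreyPackage) :
    FixedAbove (fun σ : Qb ≃ₐ[ℚ] Qb =>
      galoisRepModuleEnd (S := ℚ) (K := Qb) P.freyCurve P.p σ = 1) := by
  have := finite_torsionBy_freyCurve P
  exact fixedAbove_galoisRepModuleEnd P.freyCurve P.p

/-- **The number field `F` of the frozen `S42`**, verbatim clause: a Galois number field
`F ⊆ ℚ̄` such that `Gal(ℚ̄ / F)` acts trivially on the `p`-torsion of the Frey curve and through
any given representation `ρ` that is trivial above a finite level. -/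
theorem exists_numberField_freyCurve (P : FreyPackage) {K : Type} [Field K] {V : Type}
    [AddCommGroup V] [Module K V] (ρ : Representation K (Qb ≃ₐ[ℚ] Qb) V)
    (hρ : FixedAbove (fun σ : Qb ≃ₐ[ℚ] Qb => ρ σ = 1)) :
    ∃ (F : Type) (_ : Field F) (_ : NumberField F) (_ : IsGalois ℚ F)
      (_ : Algebra F Qb) (_ : IsScalarTower ℚ F Qb),
      (AlgEquiv.restrictNormalHom (F := ℚ) (K₁ := Qb) F).ker ≤
        (galoisRepModuleEnd (S := ℚ) (K := Qb) P.freyCurve P.p).ker ⊓ ρ.ker := by
  obtain ⟨F, i1, i2, i3, i4, i5, hF⟩ := ((fixedAbove_freyCurve P).and hρ).exists_numberField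
  exact ⟨F, i1, i2, i3, i4, i5, fun σ hσ => ⟨(hF σ hσ).1, (hF σ hσ).2⟩⟩

/-- **Frozen `S42` from its representation-theoretic content.**  To prove
`P.EigenformResidualAttachmentAt M` it suffices to give, for every normalised eigenform `g` and
every maximal ideal `𝔪 ∋ p` of `ℤ̄`, a 2-dimensional representation `ρ` of `Gal(ℚ̄/ℚ)` that is
trivial above a finite level and has the required traces and determinants of Frobenius: the
number field `F` (containing the field of the `p`-torsion of the Frey curve) is supplied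
here. -/
theorem eigenformResidualAttachmentAt_of_fixedAbove (P : FreyPackage) (M : ℕ)
    (H : ∀ (g : CuspForm (CongruenceSubgroup.Gamma0 M) 2), g.IsNormalizedEigenform →
      ∀ (𝔪 : Ideal (integralClosure ℤ ℂ)), 𝔪.IsMaximal → (P.p : integralClosure ℤ ℂ) ∈ 𝔪 →
        ∃ (K : Type) (_ : Field K) (_ : Algebra (ZMod P.p) K)
          (V : Type) (_ : AddCommGroup V) (_ : Module K V)
          (ρ : Representation K (Qb ≃ₐ[ℚ] Qb) V)
          (ψ : integralClosure ℤ ℂ →+* K),
          𝔪 ≤ RingHom.ker ψ ∧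
          Module.finrank K V = 2 ∧
          FixedAbove (fun σ : Qb ≃ₐ[ℚ] Qb => ρ σ = 1) ∧
          (∀ ℓ : ℕ, ℓ.Prime → ¬ ℓ ∣ M → ℓ ≠ P.p →
            ∀ A : ValuationSubring Qb, A.LiesOverPrime ℓ →
              ∀ τ : Qb ≃ₐ[ℚ] Qb, A.IsFrobeniusAt τ ℓ →
                ∃ a : integralClosure ℤ ℂ, (a : ℂ) = ModularFormClass.qCoeff g ℓ ∧
                  LinearMap.trace K V (ρ τ) = ψ a) ∧
          (∀ ℓ : ℕ, ℓ.Prime → ¬ ℓ ∣ M → ℓ ≠ P.p →
            ∀ A : ValuationSubring Qb, A.LiesOverPrime ℓ →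
              ∀ τ : Qb ≃ₐ[ℚ] Qb, A.IsFrobeniusAt τ ℓ →
                LinearMap.det (ρ τ) = (ℓ : K))) :
    P.EigenformResidualAttachmentAt M := by
  intro g hg 𝔪 h𝔪 hp
  obtain ⟨K, i1, i2, V, i3, i4, ρ, ψ, h1, h2, h3, h4, h5⟩ := H g hg 𝔪 h𝔪 hp
  obtain ⟨F, j1, j2, j3, j4, j5, hF⟩ := exists_numberField_freyCurve P ρ h3
  exact ⟨K, i1, i2, V, i3, i4, ρ, ψ, F, j1, j2, j3, j4, j5, h1, h2, hF, h4, h5⟩

end Frey

end Fermat.Agent.S29.H17
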